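/-
FLAT-SS-STRUCT (task 334), part 1: the wild part of inertia acts through a `p`-group.
`tameWild : Loc.TameWild` (unconditional), plus the lemmas on the tame character
`theta` of `Lib/TameProp` used for `TameKum` and `SSStruct`.
-/
import Mathlib
import Fermat.Agent.TW.Flat.Interfaces
import Fermat.Agent.Lib.TameProp
import Fermat.Agent.Lib.Tame

set_option autoImplicit false
set_option linter.style.haveILetI false

namespace Fermat.Agent.TW.Flat.SSStructProof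

open Fermat.Agent.S53 Fermat.Agent.TW Fermat.Agent.TW.Flat Fermat.Agent.Lib.TameProp

local notation "Qb" => AlgebraicClosure ℚ

attribute [local instance] Fermat.Agent.Lib.GalQbar.isAlgClosure_rat
  Fermat.Agent.Lib.GalQbar.isGalois_rat Fermat.Agent.Lib.GalQbar.isAlgebraic_rat
  Fermat.Agent.Lib.GalQbar.normal_rat

variable {P : ValuationSubring Qb}

/-- A normal level is stable under `GQ`. -/
theorem apply_mem (L : IntermediateField ℚ Qb) [Normal ℚ L] (ρ : GQ) {y : Qb} (hy : y ∈ L) :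
    ρ y ∈ L := by
  have h := AlgEquiv.restrictNormal_commutes ρ L ⟨y, hy⟩
  have h' : ρ y = ((ρ.restrictNormal L ⟨y, hy⟩ : L) : Qb) := h.symm
  rw [h']
  exact (ρ.restrictNormal L ⟨y, hy⟩).2

/-- If `σ x / x ≡ 1` on the finite normal level `L`, a `p`-power of `σ` is trivial on `L`. -/
theorem exists_pow_fix_of_U1 {p : ℕ} (hp : p.Prime) (hP : P.LiesOverPrime p)
    (L : IntermediateField ℚ Qb) [FiniteDimensional ℚ L] [Normal ℚ L] {σ : GQ}
    (hi : ∀ x ∈ L, x ≠ 0 → U1 P (σ x / x)) : ∃ a : ℕ, ∀ y ∈ L, (σ ^ p ^ a) y = y := by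
  have hL : ∀ ρ : GQ, ∀ y ∈ L, ρ y ∈ L := fun ρ y hy => apply_mem L ρ hy
  have hii : ∀ j : ℕ, ∀ x ∈ L, x ≠ 0 → U1 P ((σ ^ j) x / x) := by
    intro j
    induction j with
    | zero =>
      intro x _ hx0
      rw [pow_zero, AlgEquiv.one_apply, div_self hx0]
      exact U1.one
    | succ j ih =>
      intro x hxL hx0
      have hσx0 : σ x ≠ 0 := by simpa using hx0
      have e : (σ ^ (j + 1)) x / x = ((σ ^ j) (σ x) / σ x) * (σ x / x) := by
        rw [pow_succ, AlgEquiv.mul_apply]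
        field_simp
      rw [e]
      exact (ih (σ x) (hL σ x hxL) hσx0).mul (hi x hxL hx0)
  obtain ⟨n, hn0, hn⟩ : ∃ n : ℕ, 0 < n ∧ ∀ y ∈ L, (σ ^ n) y = y := by
    refine ⟨orderOf (AlgEquiv.restrictNormalHom L σ), orderOf_pos _, fun y hy => ?_⟩
    have h1 : AlgEquiv.restrictNormalHom L (σ ^ orderOf (AlgEquiv.restrictNormalHom L σ)) = 1 := by
      rw [map_pow, pow_orderOf_eq_one]
    have h2 := AlgEquiv.restrictNormal_commutes (σ ^ orderOf (AlgEquiv.restrictNormalHom L σ)) L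
      ⟨y, hy⟩
    have h3 : (σ ^ orderOf (AlgEquiv.restrictNormalHom L σ)).restrictNormal L = 1 := h1
    rw [h3] at h2
    exact h2.symm
  obtain ⟨a, m, hm, hnm⟩ := Nat.exists_eq_pow_mul_and_not_dvd hn0.ne' p hp.ne_one
  refine ⟨a, fixes_of_not_dvd hp hP L hL (hii (p ^ a)) m hm fun y hy => ?_⟩
  rw [← pow_mul, ← hnm]
  exact hn y hy

/-- An element of inertia in the kernel of the tame character of a uniformiser of `L` satisfies
`σ x / x ≡ 1` on all of `L`. -/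
theorem U1_ratio_of_uniformizer (L : IntermediateField ℚ Qb) (π : Qb) (hπ0 : π ≠ 0)
    (hπ : ∀ x ∈ L, x ≠ 0 → ∃ n : ℤ, P.valuation x = P.valuation (π ^ n))
    {σ : GQ} (hσ : σ ∈ P.inertiaSubgroupIn ℚ) (hσπ : U1 P (σ π / π)) :
    ∀ x ∈ L, x ≠ 0 → U1 P (σ x / x) := by
  intro x hxL hx0
  obtain ⟨n, hn⟩ := hπ x hxL hx0
  have hπn : π ^ n ≠ 0 := zpow_ne_zero n hπ0
  have hu : P.valuation (x / π ^ n) = 1 := by
    rw [map_div₀, hn, div_self]
    exact (Valuation.ne_zero_iff _).2 hπn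
  have hσπn : σ (π ^ n) ≠ 0 := (map_ne_zero_iff _ σ.injective).2 hπn
  have e : σ x / x = (σ π / π) ^ n * (σ (x / π ^ n) / (x / π ^ n)) := by
    rw [map_div₀, div_zpow, ← map_zpow₀]
    field_simp
  rw [e]
  exact (hσπ.zpow n).mul (U1_ratio_of_unit hσ hu)

/-- **[TAME-WILD]** -/
theorem tameWild : Loc.TameWild := by
  intro p hp P hP G _ _ f hlev σ hσ
  obtain ⟨L, hLfin, hL⟩ := hlev
  haveI := hLfin
  have hLL' : L ≤ IntermediateField.normalClosure ℚ ↥L Qb := L.le_normalClosure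
  haveI : FiniteDimensional ℚ (IntermediateField.normalClosure ℚ ↥L Qb) :=
    normalClosure.is_finiteDimensional ℚ ↥L Qb
  haveI : Normal ℚ (IntermediateField.normalClosure ℚ ↥L Qb) := normalClosure.normal ℚ ↥L Qb
  obtain ⟨a, ha⟩ := exists_pow_fix_of_U1 hp.out hP (IntermediateField.normalClosure ℚ ↥L Qb)
    (σ := (σ : GQ)) (fun x _ hx0 => P.mem_nonunits_iff.mp (hσ x hx0))
  refine ⟨a, ?_⟩
  rw [← map_pow]
  exact hL (σ ^ p ^ a) (fun x hx => ha x (hLL' hx))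

/-- Conjugation by the decomposition group acts on the tame character through the residue
field. -/
theorem theta_conj (π : Qb) (hπ : π ≠ 0) {δ : GQ} (hδ : δ ∈ P.decompositionSubgroup ℚ)
    (σ : ↥(P.inertiaSubgroupIn ℚ)) :
    theta P π hπ ⟨δ * σ.1 * δ⁻¹, Fermat.Agent.Lib.Tame.conj_mem_inertia hδ σ.2⟩ =
      Fermat.Agent.Lib.Tame.resHom δ hδ (theta P π hπ σ) := by
  show IsLocalRing.residue ↥P ⟨(δ * σ.1 * δ⁻¹) π / π, _⟩ =
    Fermat.Agent.Lib.Tame.resHom δ hδ (IsLocalRing.residue ↥P ⟨σ.1 π / π, ratio_mem σ.2 hπ⟩)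
  rw [Fermat.Agent.Lib.Tame.resHom_residue, Fermat.Agent.Lib.Tame.residue_eq_iff]
  set π' := δ⁻¹ π with hπ'
  have hδπ' : δ π' = π := Fermat.Agent.Lib.InertiaLift.apply_inv_apply δ π
  have hπ'0 : π' ≠ 0 := by
    intro h
    rw [h, map_zero] at hδπ'
    exact hπ hδπ'.symm
  have h1 : (δ * σ.1 * δ⁻¹) π / π = δ (σ.1 π' / π') := by
    rw [map_div₀, hδπ']
    rfl
  rw [h1, ← map_sub]
  apply Fermat.Agent.Lib.Tame.val_apply_lt_one hδ
  set ζ := π' / π with hζ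
  have hvζ : P.valuation ζ = 1 := by
    have hδinv : δ⁻¹ ∈ P.decompositionSubgroup ℚ := Subgroup.inv_mem _ hδ
    rw [hζ, map_div₀, hπ', Fermat.Agent.PT.G.valuation_apply_eq_of_mem_decomp hδinv π, div_self]
    exact (Valuation.ne_zero_iff _).2 hπ
  have hζ0 : ζ ≠ 0 := by
    rintro h
    rw [h, map_zero] at hvζ
    exact zero_ne_one hvζ
  have hτπ : σ.1 π ≠ 0 := (map_ne_zero σ.1).mpr hπ
  have hτζ : σ.1 ζ ≠ 0 := (map_ne_zero σ.1).mpr hζ0
  have h2 : σ.1 π' / π' - σ.1 π / π = (σ.1 ζ / ζ - 1) * (σ.1 π / π) := by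
    have e : π' = ζ * π := by
      rw [hζ]
      field_simp
    rw [e, map_mul]
    field_simp
  rw [h2, map_mul]
  have h3 : P.valuation (σ.1 ζ / ζ - 1) < 1 := U1_ratio_of_unit σ.2 hvζ
  have h4 : P.valuation (σ.1 π / π) ≤ 1 := (val_ratio σ.2 hπ).le
  exact mul_lt_one_of_lt_of_le h3 h4

end Fermat.Agent.TW.Flat.SSStructProof
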