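/-
FLAT-SS-STRUCT (task 334), part 2: `tameKum (hU : Loc.Unr) : Loc.TameKum`.
-/
import Mathlib
import Fermat.Agent.TW.Flat.SSStruct.Wild

set_option autoImplicit false
set_option linter.style.haveILetI false

namespace Fermat.Agent.TW.Flat.SSStructProof

open Fermat.Agent.S53 Fermat.Agent.TW Fermat.Agent.TW.Flat Fermat.Agent.Lib.TameProp
open scoped IntermediateField

local notation "Qb" => AlgebraicClosure ℚ

attribute [local instance] Fermat.Agent.Lib.GalQbar.isAlgClosure_rat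
  Fermat.Agent.Lib.GalQbar.isGalois_rat Fermat.Agent.Lib.GalQbar.isAlgebraic_rat
  Fermat.Agent.Lib.GalQbar.normal_rat

variable {P : ValuationSubring Qb}

/-- Injectivity of `n ↦ x ^ n` for `0 < x < 1` in a value group. -/
theorem zpow_inj_of_lt_one {Γ : Type*} [LinearOrderedCommGroupWithZero Γ] {x : Γ} (h0 : x ≠ 0)
    (h1 : x < 1) {m n : ℤ} (h : x ^ m = x ^ n) : m = n :=
  zpow_right_injective₀ (zero_lt_iff.2 h0) h1.ne h

/-- A unit of `P` has valuation one. -/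
theorem IsPUnit.val_eq_one {z : Qb} (hz : IsPUnit P z) : P.valuation z = 1 := by
  obtain ⟨hz0, hzP, hzP'⟩ := hz
  have h1 : P.valuation z ≤ 1 := (P.valuation_le_one_iff z).2 hzP
  have h2 : P.valuation z⁻¹ ≤ 1 := (P.valuation_le_one_iff _).2 hzP'
  rw [map_inv₀] at h2
  have h3 : 0 < P.valuation z := zero_lt_iff.2 ((Valuation.ne_zero_iff _).2 hz0)
  exact le_antisymm h1 ((inv_le_one₀ h3).1 h2)

variable (P) in
/-- Restriction of inertia to a normal level. -/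
noncomputable def resI (L : IntermediateField ℚ Qb) [Normal ℚ L] :
    ↥(P.inertiaSubgroupIn ℚ) →* (L ≃ₐ[ℚ] L) :=
  (AlgEquiv.restrictNormalHom L).comp (P.inertiaSubgroupIn ℚ).subtype

theorem resI_apply_coe (L : IntermediateField ℚ Qb) [Normal ℚ L]
    (τ : ↥(P.inertiaSubgroupIn ℚ)) (x : L) : ((resI P L τ x : L) : Qb) = (τ : GQ) (x : Qb) :=
  AlgEquiv.restrictNormal_commutes (τ : GQ) L x

theorem resI_eq_one (L : IntermediateField ℚ Qb) [Normal ℚ L]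
    (τ : ↥(P.inertiaSubgroupIn ℚ)) (h : ∀ y ∈ L, (τ : GQ) y = y) : resI P L τ = 1 := by
  apply AlgEquiv.ext
  intro x
  apply Subtype.ext
  rw [resI_apply_coe]
  exact h x x.2

/-- The tame character is trivial on `σ ^ b` if `(σ π / π) ^ b ≡ 1`. -/
theorem theta_pow_eq_one (π : Qb) (hπ : π ≠ 0) (σ : ↥(P.inertiaSubgroupIn ℚ)) (b : ℕ)
    (h : U1 P (((σ : GQ) π / π) ^ b)) : theta P π hπ σ ^ b = 1 := by
  show (IsLocalRing.residue ↥P ⟨(σ : GQ) π / π, ratio_mem σ.2 hπ⟩) ^ b = 1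
  rw [← map_pow, ← map_one (IsLocalRing.residue ↥P), ← sub_eq_zero, ← map_sub,
    IsLocalRing.residue_eq_zero_iff, P.valuation_lt_one_iff]
  exact h

/-- **The ramification index divides the order of the inertia group** (from `Loc.Unr`). -/
theorem dvd_card_range (hU : Loc.Unr) {p : ℕ} [Fact p.Prime] (hP : P.LiesOverPrime p)
    (L : IntermediateField ℚ Qb) [FiniteDimensional ℚ L] [Normal ℚ L] (π : Qb) (hπL : π ∈ L)
    (hπ0 : π ≠ 0) (hπ1 : P.valuation π < 1) (E : ℤ)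
    (hE : P.valuation (p : Qb) = P.valuation π ^ E) :
    E ∣ (Nat.card ↥(resI P L).range : ℤ) := by
  classical
  haveI : Fintype ↥(resI P L).range := Fintype.ofFinite _
  have hv0 : P.valuation π ≠ 0 := (Valuation.ne_zero_iff _).2 hπ0
  let N : L := ∏ h : ↥(resI P L).range, (h : L ≃ₐ[ℚ] L) ⟨π, hπL⟩
  have hNfix : ∀ τ ∈ P.inertiaSubgroupIn ℚ, τ (N : Qb) = N := by
    intro τ hτ
    have h1 := resI_apply_coe L ⟨τ, hτ⟩ N
    rw [← h1]
    congr 1
    let s : ↥(resI P L).range := ⟨resI P L ⟨τ, hτ⟩, ⟨_, rfl⟩⟩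
    show resI P L ⟨τ, hτ⟩ (∏ h : ↥(resI P L).range, (h : L ≃ₐ[ℚ] L) ⟨π, hπL⟩) = _
    rw [map_prod]
    exact Equiv.prod_comp (Equiv.mulLeft s) (fun h : ↥(resI P L).range => (h : L ≃ₐ[ℚ] L) ⟨π, hπL⟩)
  have hNval : P.valuation (N : Qb) = P.valuation π ^ (Nat.card ↥(resI P L).range : ℤ) := by
    have h1 : (N : Qb) = ∏ h : ↥(resI P L).range, (((h : L ≃ₐ[ℚ] L) ⟨π, hπL⟩ : L) : Qb) :=
      IntermediateField.coe_prod _ _
    rw [h1, map_prod]
    have h2 : ∀ h : ↥(resI P L).range,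
        P.valuation ((((h : L ≃ₐ[ℚ] L) ⟨π, hπL⟩ : L) : Qb)) = P.valuation π := by
      intro h
      obtain ⟨τ, hτ⟩ := h.2
      rw [← hτ, resI_apply_coe]
      exact val_apply τ.2 π
    rw [Finset.prod_congr rfl (fun h _ => h2 h), Finset.prod_const, Finset.card_univ,
      Nat.card_eq_fintype_card, zpow_natCast]
  have hN0 : (N : Qb) ≠ 0 := by
    rw [← Valuation.ne_zero_iff P.valuation, hNval]
    exact zpow_ne_zero _ hv0
  obtain ⟨n, hn⟩ := hU p P hP (N : Qb) hN0 hNfix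
  have h3 := IsPUnit.val_eq_one hn
  have hp0 : (p : Qb) ≠ 0 := by exact_mod_cast (Fact.out : p.Prime).ne_zero
  have hpn : P.valuation ((p : Qb) ^ n) ≠ 0 := (Valuation.ne_zero_iff _).2 (zpow_ne_zero _ hp0)
  rw [map_div₀, div_eq_one_iff_eq hpn, hNval, map_zpow₀, hE, ← zpow_mul] at h3
  exact ⟨n, zpow_inj_of_lt_one hv0 hπ1 h3⟩

/-- **The order of the inertia group at a finite level**: it divides `m * p ^ j` as soon as the
`m`-th power of a generator of the tame quotient is wild. -/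
theorem card_range_dvd {p : ℕ} [Fact p.Prime] (hP : P.LiesOverPrime p)
    (L : IntermediateField ℚ Qb) [FiniteDimensional ℚ L] [Normal ℚ L] (π : Qb) (hπ0 : π ≠ 0)
    (hπ : ∀ x ∈ L, x ≠ 0 → ∃ n : ℤ, P.valuation x = P.valuation (π ^ n))
    (t : ↥(P.inertiaSubgroupIn ℚ))
    (ht : ∀ σ : ↥(P.inertiaSubgroupIn ℚ), ∃ n : ℤ, theta P π hπ0 (σ * t ^ (-n)) = 1)
    (m : ℤ) (hm : theta P π hπ0 (t ^ m) = 1) :
    ∃ j : ℕ, (Nat.card ↥(resI P L).range : ℤ) ∣ m * (p : ℤ) ^ j := by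
  classical
  have hp : p.Prime := Fact.out
  have key0 : ∀ τ : ↥(P.inertiaSubgroupIn ℚ), theta P π hπ0 τ = 1 →
      ∃ a : ℕ, resI P L τ ^ p ^ a = 1 := by
    intro τ hτ
    have hU1 := (theta_eq_one_iff P π hπ0 τ).1 hτ
    obtain ⟨a, ha⟩ := exists_pow_fix_of_U1 hp hP L
      (U1_ratio_of_uniformizer L π hπ0 hπ τ.2 hU1)
    refine ⟨a, ?_⟩
    rw [← map_pow]
    exact resI_eq_one L _ ha
  set r' := (resI P L).rangeRestrict with hr'
  have hsurj : Function.Surjective r' := (resI P L).rangeRestrict_surjective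
  set W : Subgroup ↥(resI P L).range := (MonoidHom.ker (theta P π hπ0)).map r' with hW
  haveI hWn : W.Normal := Subgroup.Normal.map (MonoidHom.normal_ker _) r' hsurj
  have hWp : IsPGroup p W := by
    rintro ⟨w, hw⟩
    obtain ⟨τ, hτ, rfl⟩ := hw
    obtain ⟨a, ha⟩ := key0 τ (MonoidHom.mem_ker.1 hτ)
    refine ⟨a, ?_⟩
    apply Subtype.ext
    apply Subtype.ext
    exact ha
  obtain ⟨b, hb⟩ := (IsPGroup.iff_card).1 hWp
  set g : ↥(resI P L).range ⧸ W := QuotientGroup.mk' W (r' t) with hg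
  have hgen : ∀ x : ↥(resI P L).range ⧸ W, x ∈ Subgroup.zpowers g := by
    intro x
    obtain ⟨y, rfl⟩ := QuotientGroup.mk'_surjective W x
    obtain ⟨τ, rfl⟩ := hsurj y
    obtain ⟨n, hn⟩ := ht τ
    refine Subgroup.mem_zpowers_iff.2 ⟨n, ?_⟩
    have h1 : QuotientGroup.mk' W (r' (τ * t ^ (-n))) = 1 :=
      (QuotientGroup.eq_one_iff _).2 (Subgroup.mem_map_of_mem _ (MonoidHom.mem_ker.2 hn))
    rw [map_mul, map_mul, map_zpow, map_zpow, zpow_neg] at h1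
    rw [hg]
    exact (mul_inv_eq_one.1 h1).symm
  have hord : orderOf g = Nat.card (↥(resI P L).range ⧸ W) :=
    orderOf_eq_card_of_forall_mem_zpowers hgen
  obtain ⟨a, ha⟩ := key0 (t ^ m) hm
  have hgm : g ^ (m * (p : ℤ) ^ a) = 1 := by
    have h1 : r' (t ^ m) ^ p ^ a = 1 := by
      apply Subtype.ext
      exact ha
    have h2 := congrArg (QuotientGroup.mk' W) h1
    rw [map_pow, map_zpow, map_one] at h2
    rw [zpow_mul, hg]
    exact_mod_cast h2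
  have hdvd : (orderOf g : ℤ) ∣ m * (p : ℤ) ^ a := orderOf_dvd_iff_zpow_eq_one.2 hgm
  have hcard : Nat.card ↥(resI P L).range =
      Nat.card (↥(resI P L).range ⧸ W) * Nat.card W :=
    Subgroup.card_eq_card_quotient_mul_card_subgroup W
  refine ⟨a + b, ?_⟩
  rw [hcard, ← hord, hb]
  push_cast
  rw [pow_add, ← mul_assoc]
  exact mul_dvd_mul hdvd dvd_rfl

/-- **[TAME-KUM]**, given `Loc.Unr`. -/
theorem tameKum (hU : Loc.Unr) : Loc.TameKum := by
  intro p hp P hP e he hpe ϖ hϖ M _ f hfe hlev σ hσϖ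
  obtain ⟨L₀, hL₀fin, hL₀⟩ := hlev
  haveI := hL₀fin
  have hϖint : IsIntegral ℚ ϖ := Algebra.IsIntegral.isIntegral ϖ
  haveI : FiniteDimensional ℚ ↥(ℚ⟮ϖ⟯) := IntermediateField.adjoin.finiteDimensional hϖint
  haveI : FiniteDimensional ℚ ↥(L₀ ⊔ ℚ⟮ϖ⟯) := IntermediateField.finiteDimensional_sup L₀ ℚ⟮ϖ⟯
  set L : IntermediateField ℚ Qb := IntermediateField.normalClosure ℚ ↥(L₀ ⊔ ℚ⟮ϖ⟯) Qb with hLdef
  have hFL : L₀ ⊔ ℚ⟮ϖ⟯ ≤ L := (L₀ ⊔ ℚ⟮ϖ⟯).le_normalClosure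
  haveI : FiniteDimensional ℚ L := normalClosure.is_finiteDimensional ℚ ↥(L₀ ⊔ ℚ⟮ϖ⟯) Qb
  haveI : Normal ℚ L := normalClosure.normal ℚ ↥(L₀ ⊔ ℚ⟮ϖ⟯) Qb
  haveI : NumberField L := Fermat.Agent.PT.PlaceDict.numberField L
  have hL₀L : L₀ ≤ L := le_trans le_sup_left hFL
  have hϖL : ϖ ∈ L :=
    hFL ((le_sup_right : ℚ⟮ϖ⟯ ≤ L₀ ⊔ ℚ⟮ϖ⟯) (IntermediateField.mem_adjoin_simple_self ℚ ϖ))
  have hp0 : (p : Qb) ≠ 0 := by exact_mod_cast hp.out.ne_zero
  have hvp : P.valuation (p : Qb) < 1 := P.mem_nonunits_iff.mp hP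
  have hϖ0 : ϖ ≠ 0 := by
    rintro rfl
    rw [zero_pow he.ne'] at hϖ
    exact hp0 (neg_eq_zero.1 hϖ.symm)
  obtain ⟨π, hπL, -, hπ1, hπ⟩ := Fermat.Agent.PT.PlaceDict.exists_uniformizer L hp.out hP
  have hπ0 : π ≠ 0 := by
    rintro rfl
    obtain ⟨n, hn⟩ := hπ (p : Qb) (natCast_mem L p) hp0
    rcases eq_or_ne n 0 with rfl | hn0
    · rw [zpow_zero, map_one] at hn
      exact (ne_of_lt hvp) hn
    · rw [zero_zpow n hn0, map_zero] at hn
      exact hp0 ((map_eq_zero _).mp hn)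
  have hv0 : P.valuation π ≠ 0 := (Valuation.ne_zero_iff _).2 hπ0
  -- the wild part is killed by `f`
  have hker : ∀ τ : ↥(P.inertiaSubgroupIn ℚ), theta P π hπ0 τ = 1 → f τ = 1 := by
    intro τ hτ
    have hU1 := (theta_eq_one_iff P π hπ0 τ).1 hτ
    obtain ⟨a, ha⟩ := exists_pow_fix_of_U1 hp.out hP L
      (U1_ratio_of_uniformizer L π hπ0 hπ τ.2 hU1)
    have h1 : f τ ^ p ^ a = 1 := by
      rw [← map_pow]
      exact hL₀ (τ ^ p ^ a) (fun x hx => ha x (hL₀L hx))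
    have h2 := hfe τ
    have hcop : Nat.Coprime (p ^ a) e :=
      Nat.Coprime.pow_left a ((Nat.Prime.coprime_iff_not_dvd hp.out).2 hpe)
    have h3 : orderOf (f τ) ∣ Nat.gcd (p ^ a) e :=
      Nat.dvd_gcd (orderOf_dvd_of_pow_eq_one h1) (orderOf_dvd_of_pow_eq_one h2)
    rw [hcop.gcd_eq_one, Nat.dvd_one, orderOf_eq_one_iff] at h3
    exact h3
  obtain ⟨t, ht⟩ := exists_generator P π hπ0
  obtain ⟨n, hn⟩ := ht σ
  have hfσ : f σ = f t ^ n := by
    have h1 := hker _ hn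
    rw [map_mul, map_zpow, zpow_neg] at h1
    exact mul_inv_eq_one.1 h1
  have hθσ : theta P π hπ0 σ = theta P π hπ0 (t ^ n) := by
    have h1 : σ = σ * t ^ (-n) * t ^ n := by
      rw [mul_assoc, ← zpow_add, neg_add_cancel, zpow_zero, mul_one]
    conv_lhs => rw [h1]
    rw [map_mul, hn, one_mul]
  -- valuations of `ϖ` and `p`
  obtain ⟨a, ha⟩ := hπ ϖ hϖL hϖ0
  obtain ⟨E, hE⟩ := hπ (p : Qb) (natCast_mem L p) hp0
  rw [map_zpow₀] at ha hE
  have hEa : a * (e : ℤ) = E := by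
    have h1 : P.valuation ϖ ^ e = P.valuation (p : Qb) := by
      rw [← map_pow, hϖ, Valuation.map_neg]
    rw [ha, hE, ← zpow_natCast, ← zpow_mul] at h1
    exact zpow_inj_of_lt_one hv0 hπ1 h1
  have hE0 : E ≠ 0 := by
    rintro rfl
    rw [zpow_zero] at hE
    exact (ne_of_lt hvp) hE
  -- `(σ π / π) ^ a ≡ 1`
  have hπa : π ^ a ≠ 0 := zpow_ne_zero a hπ0
  have hu : P.valuation (ϖ / π ^ a) = 1 := by
    rw [map_div₀, map_zpow₀, ha, div_self]
    exact zpow_ne_zero _ hv0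
  have hUa : U1 P (((σ : GQ) π / π) ^ a) := by
    have hσπa : (σ : GQ) (π ^ a) ≠ 0 := (map_ne_zero_iff _ (σ : GQ).injective).2 hπa
    have e1 : ((σ : GQ) π / π) ^ a = ((σ : GQ) (ϖ / π ^ a) / (ϖ / π ^ a))⁻¹ := by
      rw [map_div₀, hσϖ, div_zpow, ← map_zpow₀]
      field_simp
    rw [e1]
    exact (U1_ratio_of_unit σ.2 hu).inv
  obtain ⟨b, hb⟩ := Int.eq_nat_or_neg a
  have hUb : U1 P (((σ : GQ) π / π) ^ b) := by
    rcases hb with hb | hb
    · rw [hb, zpow_natCast] at hUa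
      exact hUa
    · rw [hb, zpow_neg, zpow_natCast] at hUa
      have := hUa.inv
      rwa [inv_inv] at this
  have hb0 : (b : ℤ) ≠ 0 := by
    intro h0
    have ha0 : a = 0 := by
      rcases hb with hb | hb
      · rw [hb, h0]
      · rw [hb, h0, neg_zero]
    rw [ha0, zero_mul] at hEa
    exact hE0 hEa.symm
  have hbe : ((b : ℤ) * (e : ℤ)) ∣ E := by
    rcases hb with hb | hb
    · rw [← hEa, hb]
    · rw [← hEa, hb, neg_mul]
      exact (dvd_neg).2 dvd_rfl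
  have hm : theta P π hπ0 (t ^ (n * (b : ℤ))) = 1 := by
    rw [zpow_mul, zpow_natCast, map_pow, ← hθσ]
    exact theta_pow_eq_one π hπ0 σ b hUb
  obtain ⟨j, hj⟩ := card_range_dvd hP L π hπ0 hπ t ht (n * (b : ℤ)) hm
  have hEcard := dvd_card_range hU hP L π hπL hπ0 hπ1 E hE
  have h1 : ((b : ℤ) * (e : ℤ)) ∣ (b : ℤ) * (n * (p : ℤ) ^ j) := by
    have := (hbe.trans hEcard).trans hj
    rwa [mul_comm n (b : ℤ), mul_assoc] at this
  have h2 : (e : ℤ) ∣ n * (p : ℤ) ^ j := (mul_dvd_mul_iff_left hb0).1 h1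
  have hcop : IsCoprime (e : ℤ) ((p : ℤ) ^ j) := by
    have : Nat.Coprime e p := ((Nat.Prime.coprime_iff_not_dvd hp.out).2 hpe).symm
    exact (Nat.isCoprime_iff_coprime.2 this).pow_right
  obtain ⟨c, hc⟩ := hcop.dvd_of_dvd_mul_right h2
  rw [hfσ, hc, zpow_mul, zpow_natCast, hfe, one_zpow]

end Fermat.Agent.TW.Flat.SSStructProof
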