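/-
FLAT-SS-STRUCT (task 334), part 3: linear algebra of `2 × 2` matrices (Mathlib only).
-/
import Mathlib

set_option autoImplicit false

namespace Fermat.Agent.TW.Flat.SSStructProof

open Matrix Polynomial

variable {k : Type*} [Field k]

/-- Either `w` is a multiple of `v ≠ 0`, or `(v, w)` is a basis of `k²`. -/
theorem smul_or_basis (v w : Fin 2 → k) (hv : v ≠ 0) :
    (∃ a : k, w = a • v) ∨ ((∀ u : Fin 2 → k, ∃ x y : k, u = x • v + y • w) ∧
      ∀ x y : k, x • v + y • w = 0 → x = 0 ∧ y = 0) := by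
  by_cases hΔ : v 0 * w 1 - v 1 * w 0 = 0
  · left
    by_cases h0 : v 0 = 0
    · have h1 : v 1 ≠ 0 := by
        intro h1
        apply hv
        funext i
        fin_cases i
        · exact h0
        · exact h1
      have hw0 : w 0 = 0 := by
        rw [h0, zero_mul, zero_sub, neg_eq_zero] at hΔ
        exact (mul_eq_zero.1 hΔ).resolve_left h1
      refine ⟨w 1 / v 1, ?_⟩
      funext i
      fin_cases i
      · simp [h0, hw0]
      · simp [h1]
    · refine ⟨w 0 / v 0, ?_⟩
      funext i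
      fin_cases i
      · simp [h0]
      · simp only [Fin.mk_one, Pi.smul_apply, smul_eq_mul]
        field_simp
        linear_combination hΔ
  · right
    refine ⟨fun u => ⟨(u 0 * w 1 - u 1 * w 0) / (v 0 * w 1 - v 1 * w 0),
      (v 0 * u 1 - v 1 * u 0) / (v 0 * w 1 - v 1 * w 0), ?_⟩, fun x y h => ?_⟩
    · funext i
      fin_cases i
      · simp only [Fin.zero_eta, Pi.add_apply, Pi.smul_apply, smul_eq_mul]
        rw [div_mul_eq_mul_div, div_mul_eq_mul_div, ← add_div, eq_div_iff hΔ]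
        ring
      · simp only [Fin.mk_one, Pi.add_apply, Pi.smul_apply, smul_eq_mul]
        rw [div_mul_eq_mul_div, div_mul_eq_mul_div, ← add_div, eq_div_iff hΔ]
        ring
    · have h0 := congrFun h 0
      have h1 := congrFun h 1
      simp only [Pi.add_apply, Pi.smul_apply, smul_eq_mul, Pi.zero_apply] at h0 h1
      have hx : x * (v 0 * w 1 - v 1 * w 0) = 0 := by linear_combination w 1 * h0 - w 0 * h1
      have hy : y * (v 0 * w 1 - v 1 * w 0) = 0 := by linear_combination v 0 * h1 - v 1 * h0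
      exact ⟨(mul_eq_zero.1 hx).resolve_right hΔ, (mul_eq_zero.1 hy).resolve_right hΔ⟩

/-- Two matrices agreeing on a spanning pair are equal. -/
theorem eq_of_mulVec_eq {M M' : Matrix (Fin 2) (Fin 2) k} {v w : Fin 2 → k}
    (hspan : ∀ u : Fin 2 → k, ∃ x y : k, u = x • v + y • w)
    (hv : M.mulVec v = M'.mulVec v) (hw : M.mulVec w = M'.mulVec w) : M = M' := by
  apply Matrix.mulVec_injective
  funext u
  obtain ⟨x, y, rfl⟩ := hspan u
  rw [Matrix.mulVec_add, Matrix.mulVec_smul, Matrix.mulVec_smul, hv, hw, Matrix.mulVec_add,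
    Matrix.mulVec_smul, Matrix.mulVec_smul]

/-- A matrix with split characteristic polynomial has an eigenvector. -/
theorem exists_eigen_of_split (M : Matrix (Fin 2) (Fin 2) k)
    (h : ∃ α β : k, M.charpoly = (X - C α) * (X - C β)) :
    ∃ (v : Fin 2 → k) (a : k), v ≠ 0 ∧ M.mulVec v = a • v := by
  obtain ⟨α, β, h⟩ := h
  have h1 : (Matrix.scalar (Fin 2) α - M).det = 0 := by
    rw [← Matrix.eval_charpoly, h]
    simp
  obtain ⟨v, hv, hv0⟩ := Matrix.exists_mulVec_eq_zero_iff.2 h1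
  refine ⟨v, α, hv, ?_⟩
  rw [Matrix.sub_mulVec, sub_eq_zero] at hv0
  rw [← hv0]
  funext i
  simp [Matrix.mulVec, dotProduct, Matrix.scalar_apply, Matrix.diagonal_apply]

/-- Powers act on eigenvectors through powers of the eigenvalue. -/
theorem pow_mulVec_of_eigen (T : Matrix (Fin 2) (Fin 2) k) (v : Fin 2 → k) (a : k)
    (h : T.mulVec v = a • v) (n : ℕ) : (T ^ n).mulVec v = a ^ n • v := by
  induction n with
  | zero => rw [pow_zero, pow_zero, Matrix.one_mulVec, one_smul]
  | succ n ih =>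
    rw [pow_succ, ← Matrix.mulVec_mulVec, h, Matrix.mulVec_smul, ih, smul_smul, pow_succ,
      mul_comm]

/-- **The swap lemma.** If `T Ψ = Ψ T^p`, both have split characteristic polynomials and no common
eigenvector, then `T ^ (p² − 1) = 1`. -/
theorem pow_eq_one_of_swap {p : ℕ} (hp : 0 < p) (T Ψ : Matrix (Fin 2) (Fin 2) k)
    (hΨdet : Ψ.det ≠ 0) (hTdet : T.det ≠ 0) (hcomm : T * Ψ = Ψ * T ^ p)
    (hsT : ∃ α β : k, T.charpoly = (X - C α) * (X - C β))
    (hsΨ : ∃ α β : k, Ψ.charpoly = (X - C α) * (X - C β))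
    (hno : ∀ v : Fin 2 → k, v ≠ 0 → (∃ a : k, T.mulVec v = a • v) →
      (∃ a : k, Ψ.mulVec v = a • v) → False) :
    T ^ (p ^ 2 - 1) = 1 := by
  obtain ⟨v₁, α, hv₁, hTv₁⟩ := exists_eigen_of_split T hsT
  have hα0 : α ≠ 0 := by
    rintro rfl
    rw [zero_smul] at hTv₁
    exact hTdet (Matrix.exists_mulVec_eq_zero_iff.1 ⟨v₁, hv₁, hTv₁⟩)
  have hΨeig : ∀ (v : Fin 2 → k) (a : k), T.mulVec v = a • v →
      T.mulVec (Ψ.mulVec v) = a ^ p • Ψ.mulVec v := by
    intro v a h
    rw [Matrix.mulVec_mulVec, hcomm, ← Matrix.mulVec_mulVec, pow_mulVec_of_eigen T v a h p,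
      Matrix.mulVec_smul]
  have hΨinj : ∀ v : Fin 2 → k, v ≠ 0 → Ψ.mulVec v ≠ 0 := fun v hv h =>
    hΨdet (Matrix.exists_mulVec_eq_zero_iff.1 ⟨v, hv, h⟩)
  have hTv₂ : T.mulVec (Ψ.mulVec v₁) = α ^ p • Ψ.mulVec v₁ := hΨeig v₁ α hTv₁
  rcases smul_or_basis v₁ (Ψ.mulVec v₁) hv₁ with ⟨c, hc⟩ | ⟨hspan, hind⟩
  · exact (hno v₁ hv₁ ⟨α, hTv₁⟩ ⟨c, hc⟩).elim
  · by_cases hαβ : α ^ p = α
    · have hTs : ∀ u : Fin 2 → k, T.mulVec u = α • u := by
        intro u
        obtain ⟨x, y, rfl⟩ := hspan u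
        rw [Matrix.mulVec_add, Matrix.mulVec_smul, Matrix.mulVec_smul, hTv₁, hTv₂, hαβ, smul_add,
          smul_comm α x, smul_comm α y]
      obtain ⟨u, c, hu, hΨu⟩ := exists_eigen_of_split Ψ hsΨ
      exact (hno u hu ⟨α, hTs u⟩ ⟨c, hΨu⟩).elim
    · have hv₂0 : Ψ.mulVec v₁ ≠ 0 := hΨinj v₁ hv₁
      have hTv₃ : T.mulVec (Ψ.mulVec (Ψ.mulVec v₁)) = (α ^ p) ^ p • Ψ.mulVec (Ψ.mulVec v₁) :=
        hΨeig _ _ hTv₂
      obtain ⟨x, y, hxy⟩ := hspan (Ψ.mulVec (Ψ.mulVec v₁))
      have h1 : x • (α • v₁) + y • (α ^ p • Ψ.mulVec v₁) =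
          (α ^ p) ^ p • (x • v₁ + y • Ψ.mulVec v₁) := by
        rw [← hxy, ← hTv₃, hxy, Matrix.mulVec_add, Matrix.mulVec_smul, Matrix.mulVec_smul, hTv₁,
          hTv₂]
      have h2 : (x * (α - (α ^ p) ^ p)) • v₁ + (y * (α ^ p - (α ^ p) ^ p)) • Ψ.mulVec v₁ = 0 := by
        rw [mul_sub, mul_sub, sub_smul, sub_smul]
        rw [smul_add, smul_smul, smul_smul, smul_smul, smul_smul] at h1
        rw [mul_comm ((α ^ p) ^ p) x, mul_comm ((α ^ p) ^ p) y] at h1
        rw [sub_add_sub_comm, h1, sub_self]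
      obtain ⟨hx, hy⟩ := hind _ _ h2
      rcases mul_eq_zero.1 hy with hy0 | hy0
      · have hx0 : x ≠ 0 := by
          rintro rfl
          rw [hy0, zero_smul, zero_smul, add_zero] at hxy
          exact hΨinj _ hv₂0 hxy
        have hα2 : α = (α ^ p) ^ p := sub_eq_zero.1 ((mul_eq_zero.1 hx).resolve_left hx0)
        have hp2 : p ^ 2 - 1 + 1 = p * p := by
          have : 1 ≤ p * p := Nat.mul_pos hp hp
          rw [pow_two]
          omega
        have hα1 : α ^ (p ^ 2 - 1) = 1 := by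
          have h3 : α ^ (p ^ 2 - 1) * α = 1 * α := by
            rw [← pow_succ, hp2, pow_mul, one_mul]
            exact hα2.symm
          exact mul_right_cancel₀ hα0 h3
        have hβ1 : (α ^ p) ^ (p ^ 2 - 1) = 1 := by
          rw [← pow_mul, mul_comm, pow_mul, hα1, one_pow]
        apply eq_of_mulVec_eq hspan
        · rw [pow_mulVec_of_eigen T v₁ α hTv₁, hα1, one_smul, Matrix.one_mulVec]
        · rw [pow_mulVec_of_eigen T _ _ hTv₂, hβ1, one_smul, Matrix.one_mulVec]
      · have hx0 : x = 0 := by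
          rcases mul_eq_zero.1 hx with h | h
          · exact h
          · exfalso
            apply hαβ
            rw [← sub_eq_zero.1 hy0] at h
            exact (sub_eq_zero.1 h).symm
        exact (hno _ hv₂0 ⟨_, hTv₂⟩ ⟨y, by rw [hxy, hx0, zero_smul, zero_add]⟩).elim

/-- In characteristic `p`, a matrix of `p`-power order is unipotent. -/
theorem unipotent_of_pow {p : ℕ} [Fact p.Prime] [CharP k p] (g : Matrix (Fin 2) (Fin 2) k)
    (a : ℕ) (h : g ^ p ^ a = 1) : g.trace = 2 ∧ g.det = 1 := by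
  have h1 : (g - 1) ^ p ^ a = 0 := by
    rw [sub_pow_char_pow_of_commute _ _ (Commute.one_right g), h, one_pow, sub_self]
  have h2 : IsNilpotent (g - 1) := ⟨p ^ a, h1⟩
  have h3 : (g - 1).trace = 0 := (Matrix.isNilpotent_trace_of_isNilpotent h2).eq_zero
  constructor
  · rw [Matrix.trace_sub, Matrix.trace_one, Fintype.card_fin] at h3
    have := sub_eq_zero.1 h3
    rw [this]
    norm_num
  · have h4 : g.det ^ p ^ a = 1 := by rw [← Matrix.det_pow, h, Matrix.det_one]
    have h5 : (g.det - 1) ^ p ^ a = 0 := by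
      rw [sub_pow_char_pow, h4, one_pow, sub_self]
    exact sub_eq_zero.1 (pow_eq_zero_iff (pow_pos (Fact.out : p.Prime).pos a).ne' |>.1 h5)

/-- A multiplicatively closed set of unipotent `2 × 2` matrices has a common fixed vector. -/
theorem exists_common_fixed (S : Set (Matrix (Fin 2) (Fin 2) k))
    (hmul : ∀ g ∈ S, ∀ h ∈ S, g * h ∈ S) (hS : ∀ g ∈ S, g.trace = 2 ∧ g.det = 1) :
    ∃ v : Fin 2 → k, v ≠ 0 ∧ ∀ g ∈ S, g.mulVec v = v := by
  by_cases hall : ∀ g ∈ S, g = 1
  · refine ⟨![1, 0], ?_, fun g hg => ?_⟩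
    · intro h
      have := congrFun h 0
      simp at this
    · rw [hall g hg, Matrix.one_mulVec]
  · push Not at hall
    obtain ⟨g₀, hg₀, hne⟩ := hall
    obtain ⟨a₀, b₀, c₀, d₀, rfl⟩ : ∃ a b c d : k, g₀ = !![a, b; c, d] :=
      ⟨_, _, _, _, Matrix.eta_fin_two g₀⟩
    have htr₀ := (hS _ hg₀).1
    have hdet₀ := (hS _ hg₀).2
    rw [Matrix.trace_fin_two_of] at htr₀
    rw [Matrix.det_fin_two_of] at hdet₀
    -- the relations satisfied by every element of `S`
    have hrel : ∀ a b c d : k, !![a, b; c, d] ∈ S →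
        a + d = 2 ∧ a * d - b * c = 1 ∧ a * a₀ + b * c₀ + (c * b₀ + d * d₀) = 2 := by
      intro a b c d hg
      have h1 := (hS _ hg).1
      have h2 := (hS _ hg).2
      have h3 := (hS _ (hmul _ hg _ hg₀)).1
      rw [Matrix.trace_fin_two_of] at h1
      rw [Matrix.det_fin_two_of] at h2
      rw [Matrix.mul_fin_two, Matrix.trace_fin_two_of] at h3
      exact ⟨h1, h2, h3⟩
    -- a fixed vector of `g₀`
    by_cases hc₀ : c₀ = 0
    · -- `g₀ = [[1, b₀], [0, 1]]`, `b₀ ≠ 0`
      subst hc₀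
      have ha₀ : a₀ = 1 := by
        have h : (a₀ - 1) ^ 2 = 0 := by linear_combination (-1 : k) * hdet₀ + a₀ * htr₀
        have := pow_eq_zero_iff (two_ne_zero) |>.1 h
        linear_combination this
      have hd₀ : d₀ = 1 := by linear_combination htr₀ - ha₀
      subst ha₀ hd₀
      have hb₀ : b₀ ≠ 0 := by
        rintro rfl
        apply hne
        rw [Matrix.one_fin_two]
      refine ⟨![1, 0], ?_, fun g hg => ?_⟩
      · intro h
        have := congrFun h 0
        simp at this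
      · obtain ⟨a, b, c, d, rfl⟩ : ∃ a b c d : k, g = !![a, b; c, d] :=
          ⟨_, _, _, _, Matrix.eta_fin_two g⟩
        obtain ⟨h1, h2, h3⟩ := hrel a b c d hg
        have hc : c = 0 := by
          have : c * b₀ = 0 := by linear_combination h3 - h1
          exact (mul_eq_zero.1 this).resolve_right hb₀
        subst hc
        have ha : a = 1 := by
          have h : (a - 1) ^ 2 = 0 := by linear_combination (-1 : k) * h2 + a * h1
          have := pow_eq_zero_iff (two_ne_zero) |>.1 h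
          linear_combination this
        funext i
        fin_cases i <;> simp [Matrix.mulVec, dotProduct, ha]
    · -- `c₀ ≠ 0`: the fixed vector is `(1 - d₀, c₀)`... use `(a₀ - 1, c₀)`
      refine ⟨![a₀ - 1, c₀], ?_, fun g hg => ?_⟩
      · intro h
        have := congrFun h 1
        simp at this
        exact hc₀ this
      · obtain ⟨a, b, c, d, rfl⟩ : ∃ a b c d : k, g = !![a, b; c, d] :=
          ⟨_, _, _, _, Matrix.eta_fin_two g⟩
        obtain ⟨h1, h2, h3⟩ := hrel a b c d hg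
        have hA : c * (a₀ - 1) - (a - 1) * c₀ = 0 := by
          have hsq : (c * (a₀ - 1) - (a - 1) * c₀) ^ 2 = 0 := by
            linear_combination c * (-c₀ * (h3 - d₀ * h1 - (2 - a) * htr₀)
              + c * (a₀ * htr₀ - hdet₀)) + c₀ ^ 2 * (a * h1 - h2)
          exact pow_eq_zero_iff (two_ne_zero) |>.1 hsq
        have hB : (a - 1) * (a₀ - 1) + b * c₀ = 0 := by
          have hB' : c₀ * ((a - 1) * (a₀ - 1) + b * c₀) = 0 := by
            linear_combination c₀ * (h3 - d₀ * h1 - (2 - a) * htr₀) - c * (a₀ * htr₀ - hdet₀)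
              + (a₀ - 1) * hA
          exact (mul_eq_zero.1 hB').resolve_left hc₀
        funext i
        fin_cases i
        · simp only [Matrix.mulVec, dotProduct, Fin.sum_univ_two, Fin.zero_eta, Matrix.of_apply,
            Matrix.cons_val_zero, Matrix.cons_val_one]
          linear_combination hB
        · simp only [Matrix.mulVec, dotProduct, Fin.sum_univ_two, Fin.mk_one, Matrix.of_apply,
            Matrix.cons_val_zero, Matrix.cons_val_one]
          linear_combination hA + c₀ * h1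

end Fermat.Agent.TW.Flat.SSStructProof
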